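import Fermat.Agent.S56.E.Defs

/-!
# S56 / E / key `S56/E-BIDUAL` : biduality and invariance under isomorphisms      (formal, ~200 lines)

* `exists_bidual` : `e a = (φ ↦ φ a)`; bijective for a finite `p`-torsion group (`LA.exists_separating`/`LA.exists_eval`, `LA.card_dual`, S55/A/LinAlg); equivariant:
  `(dualRho χ ρ') g Φ = χ(g) Φ ∘ ρ'(g⁻¹)` and `ρ'(g⁻¹) φ = χ(g⁻¹) φ ∘ ρ(g)`, the two scalars cancel (unfold `dualRho`, S55/Coh/Arith.lean).
* `card_H0_congr` : `e` restricts to a bijection `H0 ρA ≃ H0 ρB`.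
* `sha1S_congr` : `H1c (lvlS S) he` is bijective (inverse `H1c` of `e.symm`; `H1c_retract`) and maps `Sha1S` onto `Sha1S` (`infl1`, `loc1` commute with `H1c`: `res1_H1c`, and on cocycles for `infl1`).
-/

set_option autoImplicit false

noncomputable section

namespace Fermat.Agent.S56.E

open Fermat.Agent.S55 ExtCitation

theorem exists_bidual {p : ℕ} [Fact p.Prime] {G : Type*} [Group G] (χ : G →* (ZMod p)ˣ) {A : Type*}
    [AddCommGroup A] [Finite A] (hA : ∀ a : A, p • a = 0) (ρ : G →* AddMonoid.End A) :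
    ∃ e : A ≃+ ((A →+ ZMod p) →+ ZMod p),
      IsHom ρ (dualRho χ (dualRho χ ρ)) e.toAddMonoidHom := by
  let ev : A →+ ((A →+ ZMod p) →+ ZMod p) := (AddMonoidHom.id (A →+ ZMod p)).flip
  have hinj : Function.Injective ev := by
    rw [injective_iff_map_eq_zero]
    intro v hv
    by_contra hne
    obtain ⟨m, -, hm⟩ := LA.exists_separating hA ⊥ (v := v) (by simpa using hne)
    exact hm (DFunLike.congr_fun hv m)
  have hsurj : Function.Surjective ev := by
    intro m
    obtain ⟨v, hv⟩ := LA.exists_eval hA m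
    exact ⟨v, by ext f; exact (hv f).symm⟩
  refine ⟨AddEquiv.ofBijective ev ⟨hinj, hsurj⟩, fun g a => ?_⟩
  ext φ
  show φ (ρ g a) = (χ g : ZMod p) * ((χ g⁻¹ : ZMod p) * φ (ρ g⁻¹⁻¹ a))
  rw [inv_inv, ← mul_assoc, map_inv, Units.mul_inv, one_mul]

theorem card_H0_congr {G : Type*} [Group G] {A B : Type*} [AddCommGroup A] [AddCommGroup B]
    {ρA : G →* AddMonoid.End A} {ρB : G →* AddMonoid.End B} (e : A ≃+ B)
    (he : IsHom ρA ρB e.toAddMonoidHom) : Nat.card (H0 ρA) = Nat.card (H0 ρB) := by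
  refine Nat.card_congr
    { toFun := fun a => ⟨e a.1, fun g => ?_⟩
      invFun := fun b => ⟨e.symm b.1, fun g => ?_⟩
      left_inv := fun a => Subtype.ext (e.symm_apply_apply _)
      right_inv := fun b => Subtype.ext (e.apply_symm_apply _) }
  · have h := he g a.1
    rw [a.2 g] at h
    exact h.symm
  · apply e.injective
    have h := he g (e.symm b.1)
    have h2 : e (ρA g (e.symm b.1)) = ρB g (e (e.symm b.1)) := h
    rw [h2, e.apply_symm_apply, b.2 g]

theorem H1c_mem_sha1S (S : Finset Nat.Primes) {A B : Type*} [AddCommGroup A] [AddCommGroup B]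
    {ρA : GQ →* AddMonoid.End A} {ρB : GQ →* AddMonoid.End B} {φ : A →+ B} (h : IsHom ρA ρB φ)
    {x : H1 (lvlS S) ρA} (hx : x ∈ Sha1S S ρA) : H1c (lvlS S) h x ∈ Sha1S S ρB := by
  intro q hq
  have h1 : infl1 S ρB (H1c (lvlS S) h x) = H1c lvlQ h (infl1 S ρA x) := by
    obtain ⟨f, rfl⟩ := H1.mk_surjective _ _ x
    rfl
  have h2 : res1 lvlQ ρA (Dq q).subtype (infl1 S ρA x) = 0 := hx q hq
  have h3 := res1_H1c lvlQ (Dq q).subtype h (infl1 S ρA x)
  rw [h2, map_zero] at h3
  rw [h1]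
  exact h3

theorem sha1S_congr (S : Finset Nat.Primes) {A B : Type*} [AddCommGroup A] [AddCommGroup B]
    {ρA : GQ →* AddMonoid.End A} {ρB : GQ →* AddMonoid.End B} (e : A ≃+ B)
    (he : IsHom ρA ρB e.toAddMonoidHom) : Nonempty (Sha1S S ρA ≃ Sha1S S ρB) := by
  have he' : IsHom ρB ρA e.symm.toAddMonoidHom := fun g b => by
    apply e.injective
    have h2 : e (ρA g (e.symm b)) = ρB g (e (e.symm b)) := he g (e.symm b)
    show e (e.symm (ρB g b)) = e (ρA g (e.symm b))
    rw [h2, e.apply_symm_apply, e.apply_symm_apply]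
  exact ⟨{ toFun := fun x => ⟨H1c (lvlS S) he x.1, H1c_mem_sha1S S he x.2⟩
           invFun := fun y => ⟨H1c (lvlS S) he' y.1, H1c_mem_sha1S S he' y.2⟩
           left_inv := fun x => Subtype.ext
            (H1c_retract (lvlS S) he he' (fun a => e.symm_apply_apply a) x.1)
           right_inv := fun y => Subtype.ext
            (H1c_retract (lvlS S) he' he (fun b => e.apply_symm_apply b) y.1) }⟩

end Fermat.Agent.S56.E
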