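import Fermat.Agent.S56.E.Q.Main
import Fermat.Agent.S56.E.Abs.Comb
import Fermat.Agent.S56.E.Abs.Cyc

/-!
# S56 / E : the global Euler characteristic formula `lam p ρ = 0`      (assembly; helper15)
-/

set_option autoImplicit false

noncomputable section

namespace Fermat.Agent.S56.E

open Fermat.Agent.S55 Fermat.Agent.S55.D ExtCitation Polynomial

variable {p : ℕ} [Fact p.Prime]

theorem lam_eq_zero (hp2 : p ≠ 2) {S₀ : Finset Nat.Primes} (hpS : pPrime p ∈ S₀) {A : Type}
    [AddCommGroup A] (ρ : GQ →* AddMonoid.End A) (hM : FinMod p (lvlS S₀) ρ) : lam p ρ = 0 := by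
  obtain ⟨U, hU, hn, h1, h2⟩ := exists_trivOn (smooth_rhoT_lvlS S₀ hpS) hM
  have hfin : Finite (GQ ⧸ U) := by
    have := (lvlS S₀).fin U hU
    exact Subgroup.finite_quotient_of_finiteIndex
  have hχ : ∀ u ∈ U, cycloChar p u = 1 := by
    intro u hu
    have h3 := h2 u hu 1
    rw [rhoChi_apply, mul_one] at h3
    exact Units.ext h3
  exact artin VG_torsionFree (lamData hp2 hpS hU)
    (fun g {B} _ ρB hB => cyc (lamData hp2 hpS hU) (cycloChar p) hχ
      (fun U₁ g' hg' m hUU _ hgm hm hpm P => lam_ker hp2 hpS hU U₁ g' hg' hUU hχ hm hpm hgm P)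
      g ρB hB) ρ ⟨hM.fin, hM.tors, h1⟩

end Fermat.Agent.S56.E
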