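import Mathlib
import Fermat.Agent.S55.Core
import Fermat.Prelude.Def_GaloisRep_ComplexConjugation

/-!
# S56 / block E (global Euler characteristic, owner helper15) : definitions

Briefing: `S56-E-BLUEPRINT`.  Cohomology = the S55 formalism.

* `H2S S ρ`   : classes of `H²(G_ℚ, ρ)` which are locally trivial at all `v ∉ S` (our substitute for `H²(G_S, ρ)`).
* `minus ρ c` : the `(-1)`-eigenspace of `c`.
* `lamS p S ρ = v_p #H⁰ + v_p #H2S + v_p #minus - v_p #H¹(G_S)`  (an integer; `c` = `complexConjugation`).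
* `lam p ρ`   : the germ of `S ↦ lamS p S ρ` along `atTop` ("for all sufficiently large `S`").
* `IsMod U p ρ`, `LamData U p V` : the abstract setting of the induction theorem (an additive function on the finite
  `𝔽_p[Γ/U]`-modules with values in a torsion free group `V`).
-/

set_option autoImplicit false

noncomputable section

namespace Fermat.Agent.S56.E

open Fermat.Agent.S55 ExtCitation

/-! ### abstract setting -/

section Abs

variable {Γ : Type} [Group Γ]

/-- finite `𝔽_p[Γ/U]`-modules -/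
structure IsMod (U : Subgroup Γ) (p : ℕ) {A : Type} [AddCommGroup A] (ρ : Γ →* AddMonoid.End A) :
    Prop where
  fin : Finite A
  tors : ∀ a : A, p • a = 0
  triv : TrivOn U ρ

/-- an additive function on the finite `𝔽_p[Γ/U]`-modules -/
structure LamData (U : Subgroup Γ) (p : ℕ) (V : Type) [AddCommGroup V] where
  lam : ∀ (A : Type) [AddCommGroup A], (Γ →* AddMonoid.End A) → V
  add : ∀ {A B C : Type} [AddCommGroup A] [AddCommGroup B] [AddCommGroup C]
    {ρA : Γ →* AddMonoid.End A} {ρB : Γ →* AddMonoid.End B} {ρC : Γ →* AddMonoid.End C}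
    {i : A →+ B} {j : B →+ C}, SES ρA ρB ρC i j → IsMod U p ρB → lam B ρB = lam A ρA + lam C ρC

/-- right multiplication by `g` on `Γ ⧸ U₁` (`g` normalises `U₁`) -/
def rmul (U₁ : Subgroup Γ) (g : Γ) (hg : ∀ u ∈ U₁, g⁻¹ * u * g ∈ U₁) : Γ ⧸ U₁ → Γ ⧸ U₁ :=
  Quotient.map' (fun x => x * g) (fun x y h => by
    rw [QuotientGroup.leftRel_apply] at h ⊢
    have := hg _ h
    simpa [mul_assoc] using this)

@[simp] theorem rmul_mk (U₁ : Subgroup Γ) (g : Γ) (hg : ∀ u ∈ U₁, g⁻¹ * u * g ∈ U₁) (x : Γ) :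
    rmul U₁ g hg (x : Γ ⧸ U₁) = ((x * g : Γ) : Γ ⧸ U₁) := rfl

theorem isSetMap_rmul (U₁ : Subgroup Γ) (g : Γ) (hg : ∀ u ∈ U₁, g⁻¹ * u * g ∈ U₁) :
    IsSetMap (cosetPerm U₁) (cosetPerm U₁) (rmul U₁ g hg) := by
  intro γ s
  induction s using QuotientGroup.induction_on with
  | H x => exact congrArg _ (mul_assoc γ x g)

/-- the `Γ`-endomorphism `D = (right multiplication by g)^*` of `Map(Γ/U₁, A)` -/
def Dop (U₁ : Subgroup Γ) (g : Γ) (hg : ∀ u ∈ U₁, g⁻¹ * u * g ∈ U₁) (A : Type) [AddCommGroup A] :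
    AddMonoid.End (Γ ⧸ U₁ → A) := pull A (rmul U₁ g hg)

theorem isHom_Dop (U₁ : Subgroup Γ) (g : Γ) (hg : ∀ u ∈ U₁, g⁻¹ * u * g ∈ U₁) {A : Type}
    [AddCommGroup A] (ρ : Γ →* AddMonoid.End A) :
    IsHom (Fn (cosetPerm U₁) ρ) (Fn (cosetPerm U₁) ρ) (Dop U₁ g hg A) :=
  isHom_pull ρ (isSetMap_rmul U₁ g hg)

/-- a polynomial in an equivariant endomorphism is equivariant -/
theorem isHom_aeval {A : Type} [AddCommGroup A] {ρ : Γ →* AddMonoid.End A} {D : AddMonoid.End A}
    (hD : IsHom ρ ρ D) (P : Polynomial ℤ) : IsHom ρ ρ (Polynomial.aeval D P) := by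
  intro g a
  have hc : Commute (ρ g) D := by
    ext a
    exact (hD g a).symm
  have h2 : Commute (ρ g) (Polynomial.aeval D P) := by
    induction P using Polynomial.induction_on' with
    | add p q hp hq => rw [map_add]; exact hp.add_right hq
    | monomial n a =>
      rw [Polynomial.aeval_monomial]
      exact (show Commute (ρ g) (algebraMap ℤ _ a) from (Algebra.commutes a (ρ g)).symm).mul_right
        (hc.pow_right n)
  exact (DFunLike.congr_fun h2.eq a).symm

/-- the module `ker P(D)` -/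
abbrev kerRho {A : Type} [AddCommGroup A] {ρ : Γ →* AddMonoid.End A} {D : AddMonoid.End A}
    (hD : IsHom ρ ρ D) (P : Polynomial ℤ) :
    Γ →* AddMonoid.End ↥(AddMonoidHom.ker (Polynomial.aeval D P : AddMonoid.End A)) :=
  subRho (stable_ker (isHom_aeval hD P))

end Abs

/-! ### arithmetic -/

variable {A : Type*} [AddCommGroup A]

/-- classes in `H²(G_ℚ, ρ)` which are locally trivial outside `S` -/
def H2S (S : Finset Nat.Primes) (ρ : GQ →* AddMonoid.End A) : AddSubgroup (H2 lvlQ ρ) where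
  carrier := {x | ∀ v ∉ S, loc2 ρ v x = 0}
  add_mem' := fun ha hb v hv => by rw [map_add, ha v hv, hb v hv, add_zero]
  zero_mem' := fun v _ => map_zero _
  neg_mem' := fun ha v hv => by rw [map_neg, ha v hv, neg_zero]

theorem mem_H2S {S : Finset Nat.Primes} {ρ : GQ →* AddMonoid.End A} {x : H2 lvlQ ρ} :
    x ∈ H2S S ρ ↔ ∀ v ∉ S, loc2 ρ v x = 0 := Iff.rfl

/-- the `(-1)`-eigenspace of `c` -/
def minus {G : Type*} [Group G] (ρ : G →* AddMonoid.End A) (c : G) : AddSubgroup A where
  carrier := {a | ρ c a = -a}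
  add_mem' := fun {a b} (ha : ρ c a = -a) (hb : ρ c b = -b) => by
    show ρ c (a + b) = -(a + b)
    rw [map_add, ha, hb]; abel
  zero_mem' := by show ρ c 0 = -0; simp
  neg_mem' := fun {a} (ha : ρ c a = -a) => by
    show ρ c (-a) = - -a
    rw [map_neg, ha]

theorem mem_minus {G : Type*} [Group G] {ρ : G →* AddMonoid.End A} {c : G} {a : A} :
    a ∈ minus ρ c ↔ ρ c a = -a := Iff.rfl

/-- complex conjugation -/
abbrev cc : GQ := complexConjugation

/-- the Euler characteristic defect at the level `S` -/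
def lamS (p : ℕ) (S : Finset Nat.Primes) (ρ : GQ →* AddMonoid.End A) : ℤ :=
  (padicValNat p (Nat.card (H0 ρ)) : ℤ) + padicValNat p (Nat.card (H2S S ρ)) +
    padicValNat p (Nat.card (minus ρ cc)) - padicValNat p (Nat.card (H1 (lvlS S) ρ))

/-- the value group: germs of integer valued functions of `S` -/
abbrev VG : Type := Filter.Germ (Filter.atTop : Filter (Finset Nat.Primes)) ℤ

/-- the Euler characteristic defect "for `S` large" -/
def lam (p : ℕ) (ρ : GQ →* AddMonoid.End A) : VG :=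
  ((fun S => lamS p S ρ : Finset Nat.Primes → ℤ) : VG)

theorem lam_eq_zero_iff {p : ℕ} {ρ : GQ →* AddMonoid.End A} :
    lam p ρ = 0 ↔ ∃ S₁ : Finset Nat.Primes, ∀ S, S₁ ⊆ S → lamS p S ρ = 0 := by
  rw [lam, show (0 : VG) = ((fun _ => 0 : Finset Nat.Primes → ℤ) : VG) from rfl, Filter.Germ.coe_eq,
    Filter.EventuallyEq, Filter.eventually_atTop]

theorem VG_torsionFree (n : ℕ) (hn : n ≠ 0) (v : VG) (h : n • v = 0) : v = 0 := by
  induction v using Filter.Germ.inductionOn with
  | _ f =>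
    rw [show (0 : VG) = ((fun _ => 0 : Finset Nat.Primes → ℤ) : VG) from rfl] at h ⊢
    rw [← Filter.Germ.coe_smul, Filter.Germ.coe_eq] at h
    rw [Filter.Germ.coe_eq]
    filter_upwards [h] with S hS
    simpa [hn] using hS

end Fermat.Agent.S56.E
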