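import Fermat.Agent.S56.Defs
import Fermat.Agent.S56.E.Defs
import Fermat.Agent.S56.E.P.Plc

/-!
# S56 / E / key `S56/E-MINUS` : `#(ad⁰(1))^{c=-1} = #k`      (helper28)

`τ = Ad (r0 c)` is an involution of `M = ad⁰`, `χ(c) = -1`, so `(M')^{c=-1} = {φ | φ ∘ τ = φ}`, which restricts isomorphically to the dual of `M^τ` (`p` odd);
`g = r0 c` has `g² = 1`, `det g = -1`, so `tr g = 0`, and `M^τ = k g`.
-/

set_option autoImplicit false

noncomputable section

namespace Fermat.Agent.S56.E

open Fermat.Agent.S53 (M2)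
open Fermat.Agent.S55 ExtCitation

/-- functionals invariant under an involution -/
theorem card_inv_dual_aux {p : ℕ} [Fact p.Prime] (hp2 : p ≠ 2) {M : Type*} [AddCommGroup M] [Finite M]
    (hM : ∀ a : M, p • a = 0) (τ : M →+ M) (hτ : ∀ a, τ (τ a) = a) :
    Nat.card {φ : M →+ ZMod p // ∀ a, φ (τ a) = φ a} = Nat.card {a : M // τ a = a} := by
  have hpp : p.Prime := Fact.out
  obtain ⟨n, hn⟩ : ∃ n, p = 2 * n + 1 := (hpp.eq_two_or_odd'.resolve_left hp2)
  have h2 : (2 : ZMod p) * ((n + 1 : ℕ) : ZMod p) = 1 := by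
    have h3 : ((2 * (n + 1) : ℕ) : ZMod p) = ((p + 1 : ℕ) : ZMod p) := by congr 1; omega
    rw [Nat.cast_mul, Nat.cast_add p 1, ZMod.natCast_self, zero_add, Nat.cast_one] at h3
    exact_mod_cast h3
  let P : AddSubgroup M := (τ - AddMonoidHom.id M).ker
  have hP : ∀ a, a ∈ P ↔ τ a = a := fun a => by
    rw [AddMonoidHom.mem_ker, AddMonoidHom.sub_apply, AddMonoidHom.id_apply, sub_eq_zero]
  let N : M →+ ↥P := (AddMonoidHom.id M + τ).codRestrict P (fun a => by
    rw [hP, AddMonoidHom.add_apply, AddMonoidHom.id_apply, map_add, hτ, add_comm])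
  have hN : ∀ a, ((N a : ↥P) : M) = a + τ a := fun _ => rfl
  let R : {φ : M →+ ZMod p // ∀ a, φ (τ a) = φ a} → (↥P →+ ZMod p) := fun φ => φ.1.comp P.subtype
  have hR : Function.Bijective R := by
    constructor
    · intro φ ψ h
      refine Subtype.ext (AddMonoidHom.ext fun a => ?_)
      have h3 : φ.1 (a + τ a) = ψ.1 (a + τ a) := DFunLike.congr_fun h (N a)
      rw [map_add, map_add, φ.2, ψ.2, ← two_mul, ← two_mul] at h3
      calc φ.1 a = (((n + 1 : ℕ) : ZMod p) * 2) * φ.1 a := by rw [mul_comm _ (2 : ZMod p), h2, one_mul]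
        _ = (((n + 1 : ℕ) : ZMod p) * 2) * ψ.1 a := by rw [mul_assoc, h3, ← mul_assoc]
        _ = ψ.1 a := by rw [mul_comm _ (2 : ZMod p), h2, one_mul]
    · intro ψ
      refine ⟨⟨(AddMonoidHom.mulLeft ((n + 1 : ℕ) : ZMod p)).comp (ψ.comp N), fun a => ?_⟩, ?_⟩
      · have h3 : N (τ a) = N a := Subtype.ext (by rw [hN, hN, hτ, add_comm])
        simp only [AddMonoidHom.comp_apply, h3]
      · ext a
        have h3 : N a.1 = a + a := Subtype.ext (by
          rw [hN, (hP a.1).1 a.2]; rfl)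
        show ((n + 1 : ℕ) : ZMod p) * ψ (N a.1) = ψ a
        rw [h3, map_add, ← two_mul, ← mul_assoc, mul_comm _ (2 : ZMod p), h2, one_mul]
  rw [Nat.card_congr (Equiv.ofBijective R hR),
    LA.card_dual (fun a : ↥P => Subtype.ext (hM a.1))]
  exact Nat.card_congr (Equiv.subtypeEquivRight hP)

/-- trace zero matrices commuting with an involution of determinant `-1` -/
theorem card_comm_aux {k : Type} [Field k] (h2 : (2 : k) ≠ 0) (g : M2 k) (hgg : g * g = 1)
    (hdet : g.det = -1) :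
    Nat.card {X : Ad0 k // g * (X : M2 k) = (X : M2 k) * g} = Nat.card k := by
  have e00 : g 0 0 * g 0 0 + g 0 1 * g 1 0 = 1 := by
    have := congrFun (congrFun hgg 0) 0
    simpa [Matrix.mul_apply, Fin.sum_univ_two] using this
  have e01 : g 0 0 * g 0 1 + g 0 1 * g 1 1 = 0 := by
    have := congrFun (congrFun hgg 0) 1
    simpa [Matrix.mul_apply, Fin.sum_univ_two] using this
  have e10 : g 1 0 * g 0 0 + g 1 1 * g 1 0 = 0 := by
    have := congrFun (congrFun hgg 1) 0
    simpa [Matrix.mul_apply, Fin.sum_univ_two] using this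
  have e11 : g 1 0 * g 0 1 + g 1 1 * g 1 1 = 1 := by
    have := congrFun (congrFun hgg 1) 1
    simpa [Matrix.mul_apply, Fin.sum_univ_two] using this
  rw [Matrix.det_fin_two] at hdet
  have htr : g 0 0 + g 1 1 = 0 := by
    by_contra hne
    have ha : g 0 0 = 0 := by
      have : g 0 0 * (g 0 0 + g 1 1) = 0 := by linear_combination e00 + hdet
      exact (mul_eq_zero.1 this).resolve_right hne
    have hb : g 0 1 = 0 := by
      have : g 0 1 * (g 0 0 + g 1 1) = 0 := by linear_combination e01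
      exact (mul_eq_zero.1 this).resolve_right hne
    rw [ha, hb] at e00
    simp at e00
  have hd : g 1 1 = - g 0 0 := by linear_combination htr
  have hgM : g ∈ M0 k := by
    rw [mem_M0, Matrix.trace_fin_two]
    exact htr
  let f : k → {X : Ad0 k // g * (X : M2 k) = (X : M2 k) * g} := fun t =>
    ⟨⟨t • g, by
      rw [mem_M0, Matrix.trace_smul, (mem_M0.1 hgM), smul_zero]⟩, by
      show g * (t • g) = (t • g) * g
      rw [Matrix.mul_smul, Matrix.smul_mul]⟩
  have hf : ∀ t i j, ((f t).1 : M2 k) i j = t * g i j := fun _ _ _ => rfl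
  refine (Nat.card_congr (Equiv.ofBijective f ⟨fun t t' h => ?_, fun X => ?_⟩)).symm
  · have h00 : t * g 0 0 = t' * g 0 0 := by rw [← hf, ← hf, h]
    have h01 : t * g 0 1 = t' * g 0 1 := by rw [← hf, ← hf, h]
    linear_combination (t' - t) * e00 + g 0 0 * h00 + g 1 0 * h01
  · have hX := X.2
    have htX : (X.1 : M2 k) 0 0 + (X.1 : M2 k) 1 1 = 0 := by
      have := mem_M0.1 X.1.2
      rwa [Matrix.trace_fin_two] at this
    have c00 := congrFun (congrFun hX 0) 0
    have c01 := congrFun (congrFun hX 0) 1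
    have c10 := congrFun (congrFun hX 1) 0
    simp only [Matrix.mul_apply, Fin.sum_univ_two] at c00 c01 c10
    rw [hd] at c01 c10
    have hx1 : (X.1 : M2 k) 1 1 = - (X.1 : M2 k) 0 0 := by linear_combination htX
    rw [hx1] at c01 c10
    -- `a y = b x`, `c x = a z`, `b z = y c`
    have r1 : g 0 0 * (X.1 : M2 k) 0 1 = g 0 1 * (X.1 : M2 k) 0 0 := by
      have : (2 : k) * (g 0 0 * (X.1 : M2 k) 0 1 - g 0 1 * (X.1 : M2 k) 0 0) = 0 := by
        linear_combination c01
      have := (mul_eq_zero.1 this).resolve_left h2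
      linear_combination this
    have r2 : g 1 0 * (X.1 : M2 k) 0 0 = g 0 0 * (X.1 : M2 k) 1 0 := by
      have : (2 : k) * (g 1 0 * (X.1 : M2 k) 0 0 - g 0 0 * (X.1 : M2 k) 1 0) = 0 := by
        linear_combination c10
      have := (mul_eq_zero.1 this).resolve_left h2
      linear_combination this
    have r3 : g 0 1 * (X.1 : M2 k) 1 0 = (X.1 : M2 k) 0 1 * g 1 0 := by linear_combination c00
    refine ⟨(X.1 : M2 k) 0 0 * g 0 0 + (X.1 : M2 k) 0 1 * g 1 0, Subtype.ext (Subtype.ext ?_)⟩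
    ext i j
    rw [hf]
    fin_cases i <;> fin_cases j
    · show ((X.1 : M2 k) 0 0 * g 0 0 + (X.1 : M2 k) 0 1 * g 1 0) * g 0 0 = (X.1 : M2 k) 0 0
      linear_combination (X.1 : M2 k) 0 0 * e00 + g 1 0 * r1
    · show ((X.1 : M2 k) 0 0 * g 0 0 + (X.1 : M2 k) 0 1 * g 1 0) * g 0 1 = (X.1 : M2 k) 0 1
      linear_combination (X.1 : M2 k) 0 1 * e00 - g 0 0 * r1
    · show ((X.1 : M2 k) 0 0 * g 0 0 + (X.1 : M2 k) 0 1 * g 1 0) * g 1 0 = (X.1 : M2 k) 1 0
      linear_combination (X.1 : M2 k) 1 0 * e00 + g 0 0 * r2 - g 1 0 * r3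
    · show ((X.1 : M2 k) 0 0 * g 0 0 + (X.1 : M2 k) 0 1 * g 1 0) * g 1 1 = (X.1 : M2 k) 1 1
      rw [hd, hx1]
      linear_combination (-(X.1 : M2 k) 0 0) * e00 - g 1 0 * r1

theorem card_minus_ad' {p : ℕ} [Fact p.Prime] (hp2 : p ≠ 2) {k : Type} [Field k] [Finite k]
    [CharP k p] (r0 : GQ →* GL (Fin 2) k) (hdet : IsCycDet p r0) :
    Nat.card (minus (dualRho (cycloChar p) (adRho r0)) cc) = Nat.card k := by
  have hpp : p.Prime := Fact.out
  have h2 : (2 : k) ≠ 0 := by
    intro h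
    have h5 : ((2 : ℕ) : k) = 0 := by exact_mod_cast h
    rw [CharP.cast_eq_zero_iff k p] at h5
    exact hp2 ((Nat.prime_dvd_prime_iff_eq hpp Nat.prime_two).1 h5)
  have hgg : (r0 cc : M2 k) * (r0 cc : M2 k) = 1 := by
    rw [← Units.val_mul, ← map_mul, show cc * cc = 1 from complexConjugation_mul_self, map_one,
      Units.val_one]
  have hginv : (((r0 cc)⁻¹ : GL (Fin 2) k) : M2 k) = (r0 cc : M2 k) := by
    have : (r0 cc)⁻¹ = r0 cc := inv_eq_of_mul_eq_one_right (Units.ext hgg)
    rw [this]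
  have hd : (r0 cc : M2 k).det = -1 := by
    rw [hdet cc, cycloChar_cc, Units.val_neg, Units.val_one, ZMod.natCast_val,
      ZMod.cast_neg (dvd_refl p), ZMod.cast_one (dvd_refl p)]
  have hM : ∀ a : Ad0 k, p • a = 0 := fun a => Subtype.ext (by
    ext i j
    show (p • (a : M2 k)) i j = 0
    rw [Matrix.smul_apply, nsmul_eq_mul, CharP.cast_eq_zero, zero_mul])
  have hτ : ∀ a, adRho r0 cc (adRho r0 cc a) = a := fun a => by
    have h1 := DFunLike.congr_fun (map_mul (adRho r0) cc cc) a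
    rw [show cc * cc = 1 from complexConjugation_mul_self, map_one] at h1
    exact h1.symm
  have e1 : ↥(minus (dualRho (cycloChar p) (adRho r0)) cc) ≃
      {φ : Ad0 k →+ ZMod p // ∀ a, φ (adRho r0 cc a) = φ a} :=
    Equiv.subtypeEquivRight fun φ => by
      rw [mem_minus]
      constructor
      · intro h a
        have h1 := DFunLike.congr_fun h a
        have h3 : ((cycloChar p cc : (ZMod p)ˣ) : ZMod p) * φ (adRho r0 cc⁻¹ a) = - φ a := h1
        rw [cycloChar_cc, show cc⁻¹ = cc from complexConjugation_inv, Units.val_neg, Units.val_one,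
          neg_one_mul, neg_inj] at h3
        exact h3
      · intro h
        ext a
        show ((cycloChar p cc : (ZMod p)ˣ) : ZMod p) * φ (adRho r0 cc⁻¹ a) = - φ a
        rw [cycloChar_cc, show cc⁻¹ = cc from complexConjugation_inv, Units.val_neg, Units.val_one,
          neg_one_mul, h a]
  have e2 : {a : Ad0 k // adRho r0 cc a = a} ≃
      {X : Ad0 k // (r0 cc : M2 k) * (X : M2 k) = (X : M2 k) * (r0 cc : M2 k)} :=
    Equiv.subtypeEquivRight fun X => by
      rw [Subtype.ext_iff, coe_adRho, hginv]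
      constructor
      · intro h
        calc (r0 cc : M2 k) * (X : M2 k) = (r0 cc : M2 k) * (X : M2 k) * ((r0 cc : M2 k) * (r0 cc : M2 k)) := by
              rw [hgg, mul_one]
          _ = ((r0 cc : M2 k) * (X : M2 k) * (r0 cc : M2 k)) * (r0 cc : M2 k) := by
              rw [mul_assoc, mul_assoc, mul_assoc]
          _ = (X : M2 k) * (r0 cc : M2 k) := by rw [h]
      · intro h
        rw [h, mul_assoc, hgg, mul_one]
  exact (Nat.card_congr e1).trans ((card_inv_dual_aux hp2 hM (adRho r0 cc) hτ).trans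
    ((Nat.card_congr e2).trans (card_comm_aux h2 _ hgg hd)))

end Fermat.Agent.S56.E
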