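import Fermat.Agent.S56.Defs
import Fermat.Agent.S56.E.Main
import Fermat.Agent.S56.E.Bidual
import Fermat.Agent.S56.E.Minus

/-!
# S56 / E : the export of block E (global Euler characteristic; owner helper15)

`ec` : for a finite `𝔽_p[G_S₀]`-module `M = (A, ρ)` with dual `M' = dualRho (cycloChar p) ρ` and ALL SUFFICIENTLY LARGE `S`:

  `#H¹(G_S, M') * #H⁰(M) = #Ш¹_S(M) * #H⁰(M') * ∏_{v ∈ S} #H⁰(D_v, M) * #(M')^{c = -1}`.

(This is `χ(G_S, M') = -dim (M')^{c=-1}` + `#H²_S(M') = #Ш¹_S(M) ∏_{v∈S} #H⁰(D_v,M) / #H⁰(M)`.)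
CONSUMER (GW, helper28): run Greenberg-Wiles with `S ⊇ S₁`, `L_v = H¹ur` at the added primes.

`card_minus_ad` : `#(ad⁰(1))^{c=-1} = #k`.
-/

set_option autoImplicit false

noncomputable section

namespace Fermat.Agent.S56.E

open Fermat.Agent.S55 ExtCitation

/-- **(EC)** -/
theorem ec {p : ℕ} [Fact p.Prime] (hp2 : p ≠ 2) (S₀ : Finset Nat.Primes) (hpS : pPrime p ∈ S₀)
    {A : Type} [AddCommGroup A] (ρ : GQ →* AddMonoid.End A) (hM : FinMod p (lvlS S₀) ρ) :
    ∃ S₁ : Finset Nat.Primes, S₀ ⊆ S₁ ∧ ∀ S : Finset Nat.Primes, S₁ ⊆ S →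
      Finite (H1 (lvlS S) (dualRho (cycloChar p) ρ)) ∧ Finite (Sha1S S ρ) ∧
      Nat.card (H1 (lvlS S) (dualRho (cycloChar p) ρ)) * Nat.card (H0 ρ) =
        Nat.card (Sha1S S ρ) * Nat.card (H0 (dualRho (cycloChar p) ρ)) *
          (∏ v ∈ S, Nat.card (H0 (rv Dq ρ v))) *
          Nat.card (minus (dualRho (cycloChar p) ρ) cc) := by
  classical
  obtain ⟨dat⟩ := datumQ p hp2
  haveI : Nonempty Nat.Primes := ⟨pPrime p⟩
  have hχS := D.smooth_rhoT_lvlS S₀ hpS
  have hN : FinMod p (lvlS S₀) (dualRho (cycloChar p) ρ) := hM.dual hχS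
  have hNfin := hN.fin
  have hAfin := hM.fin
  obtain ⟨Sa, hSa⟩ := lam_eq_zero_iff.1 (lam_eq_zero hp2 hpS _ hN)
  obtain ⟨Sb, hSb0, hSb⟩ := exists_large hp2 hpS hN
  obtain ⟨e, he⟩ := exists_bidual (cycloChar p) hM.tors ρ
  refine ⟨Sa ∪ Sb, hSb0.trans Finset.subset_union_right, fun S hS => ?_⟩
  have hSa' := hSa S (Finset.subset_union_left.trans hS)
  obtain ⟨-, -, hshafin, hsha⟩ := hSb S (Finset.subset_union_right.trans hS)
  have hS0 : S₀ ⊆ S := hSb0.trans (Finset.subset_union_right.trans hS)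
  have hNS : FinMod p (lvlS S) (dualRho (cycloChar p) ρ) := FinMod.mono hS0 hN
  have hNQ : FinMod p lvlQ (dualRho (cycloChar p) ρ) := D.finMod_lvlQ_aux hN
  have hH1 : Finite (H1 (lvlS S) (dualRho (cycloChar p) ρ)) := finite_H1S hp2 (hS0 hpS) hNS
  obtain ⟨hH2, h2⟩ := card_H2S hp2 (hS0 hpS) hNQ
  obtain ⟨-, -, hd⟩ := dual_all (smooth_rhoT p) dat hN.tors _ hNQ.smooth
  obtain ⟨es⟩ := sha1S_congr S e he
  have hfinSha : Finite (Sha1S S ρ) := Finite.of_equiv _ es.symm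
  refine ⟨hH1, hfinSha, ?_⟩
  -- cardinalities as powers of `p`
  have c1 := card_eq_pow (p := p) (X := H1 (lvlS S) (dualRho (cycloChar p) ρ))
    (nsmul_H1 _ _ hN.tors)
  have c0 := card_eq_pow (p := p) (X := H0 (dualRho (cycloChar p) ρ))
    (fun x => Subtype.ext (hN.tors x.1))
  have cm := card_eq_pow (p := p) (X := minus (dualRho (cycloChar p) ρ) cc)
    (fun x => Subtype.ext (hN.tors x.1))
  have c2 := card_eq_pow (p := p) (X := H2S S (dualRho (cycloChar p) ρ))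
    (fun x => Subtype.ext (nsmul_H2 _ _ hN.tors x.1))
  have hsum : padicValNat p (Nat.card (H1 (lvlS S) (dualRho (cycloChar p) ρ))) =
      padicValNat p (Nat.card (H0 (dualRho (cycloChar p) ρ))) +
        padicValNat p (Nat.card (H2S S (dualRho (cycloChar p) ρ))) +
        padicValNat p (Nat.card (minus (dualRho (cycloChar p) ρ) cc)) := by
    unfold lamS at hSa'
    omega
  have hcard : Nat.card (H1 (lvlS S) (dualRho (cycloChar p) ρ)) =
      Nat.card (H0 (dualRho (cycloChar p) ρ)) * Nat.card (H2S S (dualRho (cycloChar p) ρ)) *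
        Nat.card (minus (dualRho (cycloChar p) ρ) cc) := by
    rw [c1, hsum, pow_add, pow_add, ← c0, ← c2, ← cm]
  have b0 : Nat.card (H0 ρ) = Nat.card (H0 (dualRho (cycloChar p) (dualRho (cycloChar p) ρ))) :=
    card_H0_congr e he
  have bv : ∀ v : Nat.Primes, Nat.card (H0 (rv Dq ρ v)) =
      Nat.card (H0 (rv Dq (dualRho (cycloChar p) (dualRho (cycloChar p) ρ)) v)) := fun v =>
    card_H0_congr e (he.res (Dq v).subtype)
  rw [hcard, b0, Nat.card_congr es, hsha, ← hd, Finset.prod_congr rfl (fun v _ => bv v)]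
  calc _ = Nat.card (H0 (dualRho (cycloChar p) ρ)) * Nat.card (minus (dualRho (cycloChar p) ρ) cc) *
        (Nat.card (H2S S (dualRho (cycloChar p) ρ)) *
          Nat.card (H0 (dualRho (cycloChar p) (dualRho (cycloChar p) ρ)))) := by ring
    _ = _ := by rw [h2]; ring

/-- the `(-1)`-eigenspace of complex conjugation on `ad⁰(1)`   [key `S56/E-MINUS`]
PROOF: `cycloChar p cc = -1` (from `complexEmbedding_complexConjugation`: `cc ζ = ζ⁻¹`); `g = r0 cc` has `g² = 1`, `det g = -1`, `p ≠ 2`,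
so `g` is conjugate to `diag(1,-1)`; `(dualRho χ ρ) c φ = χ(c) φ ∘ ρ(c⁻¹)`, so `φ ∈ minus ↔ φ ∘ Ad(g) = φ ↔ φ` kills `(Ad g - 1) M`;
`#{φ} = #(M/(Ad g - 1)M) = #ker(Ad g - 1) = #k` (`LA.card_dual`; the centraliser of `diag(1,-1)` in trace zero matrices = `k · diag(1,-1)`). -/
theorem card_minus_ad {p : ℕ} [Fact p.Prime] (hp2 : p ≠ 2) {k : Type} [Field k] [Finite k]
    [CharP k p] (r0 : GQ →* GL (Fin 2) k) (hdet : IsCycDet p r0) :
    Nat.card (minus (dualRho (cycloChar p) (adRho r0)) cc) = Nat.card k :=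
  card_minus_ad' hp2 r0 hdet

end Fermat.Agent.S56.E
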